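import Fermat.Agent.H92.MW.CoreInterfaces

/-!
# P-MW, row MW-NORTH (helper46): Northcott for the naive height of ideals

`north (𝒞 : MWDatum R) : NorthcottPolyStatement → 𝒞.NorthStatement`, UNCONDITIONAL in the datum
(`BasicStatement` is not needed):

* `quotient_finite` : `R ⧸ I` is finite over `ℚ` for `I ≠ ⊥` (finite type + Krull dimension `0`);
* `t_pow_not_mem` : `t ^ n ∉ W (n e - 1)` for `n ≥ 1` (from `bar_val`), hence
  `aeval_t_ne_zero` : `f(t) ≠ 0` for monic `f` (`t` is transcendental);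
* `aeval_tCharpoly_mem` : `χ_I(t) ∈ I` (Cayley–Hamilton);
* a nonzero element of a Dedekind domain lies in finitely many ideals.
-/

set_option autoImplicit false

noncomputable section

open Module TensorProduct Polynomial

namespace Fermat.Agent.H46.MW

open Fermat.Agent.H92.MW

/-! ### Base change detects membership -/

/-- Over a field, `1 ⊗ x ∈ W.baseChange A` iff `x ∈ W` (`A` a nontrivial algebra). -/
lemma one_tmul_mem_baseChange_iff {K A V : Type*} [Field K] [CommRing A] [Algebra K A]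
    [Nontrivial A] [AddCommGroup V] [Module K V] (W : Submodule K V) (x : V) :
    (1 : A) ⊗ₜ[K] x ∈ W.baseChange A ↔ x ∈ W := by
  refine ⟨fun h => ?_, fun h => Submodule.tmul_mem_baseChange_of_mem 1 h⟩
  by_contra hx
  obtain ⟨φ, hφx, hWφ⟩ := Submodule.exists_le_ker_of_notMem hx
  have hle : W.baseChange A ≤ LinearMap.ker (φ.baseChange A) := by
    rw [Submodule.baseChange_eq_span, Submodule.span_le]
    rintro _ ⟨w, hw, rfl⟩
    have hw0 : φ w = 0 := hWφ hw
    simp [hw0]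
  have h1 : φ.baseChange A ((1 : A) ⊗ₜ[K] x) = 0 := hle h
  rw [LinearMap.baseChange_tmul] at h1
  have h2 := congrArg (TensorProduct.rid K A) h1
  rw [TensorProduct.rid_tmul, map_zero] at h2
  rw [Algebra.smul_def, mul_one] at h2
  exact hφx ((map_eq_zero_iff _ (algebraMap K A).injective).1 h2)

variable {R : Type} [CommRing R] [Algebra ℚ R] [IsDedekindDomain R]

/-! ### Finiteness of the quotients -/

/-- `R ⧸ I` is a finite `ℚ`-module for every nonzero ideal `I`. -/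
theorem quotient_finite (𝒞 : MWDatum R) (I : Ideal R) (hI : I ≠ ⊥) : Module.Finite ℚ (R ⧸ I) := by
  have hft : Algebra.FiniteType ℚ R := 𝒞.finiteType
  have hft' : Algebra.FiniteType ℚ (R ⧸ I) :=
    Algebra.FiniteType.of_surjective (Ideal.Quotient.mkₐ ℚ I) (Ideal.Quotient.mkₐ_surjective ℚ I)
  rw [Module.finite_iff_krullDimLE_zero, Ring.krullDimLE_zero_iff]
  intro J hJ
  have hJ' : (J.comap (Ideal.Quotient.mk I)).IsPrime := hJ.comap _
  have hne : J.comap (Ideal.Quotient.mk I) ≠ ⊥ := by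
    intro h
    apply hI
    rw [eq_bot_iff, ← h]
    intro x hx
    rw [Ideal.mem_comap, Ideal.Quotient.eq_zero_iff_mem.2 hx]
    exact J.zero_mem
  have hmax : (J.comap (Ideal.Quotient.mk I)).IsMaximal := hJ'.isMaximal hne
  have hsurj : Function.Surjective (Ideal.Quotient.mk I) := Ideal.Quotient.mk_surjective
  have := Ideal.map_eq_top_or_isMaximal_of_surjective (Ideal.Quotient.mk I) hsurj hmax
  rw [Ideal.map_comap_of_surjective _ hsurj] at this
  rcases this with h | h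
  · exact absurd h hJ.ne_top
  · exact h

/-! ### Transcendence of `t` -/

lemma t_pow_mem (𝒞 : MWDatum R) (n : ℕ) : 𝒞.t ^ n ∈ 𝒞.W (n * 𝒞.e) := by
  induction n with
  | zero =>
    rw [pow_zero, Nat.zero_mul, 𝒞.W_zero]
    exact Submodule.one_le.1 le_rfl
  | succ n ih =>
    rw [pow_succ, Nat.succ_mul]
    exact 𝒞.W_mul _ _ (Submodule.mul_mem_mul ih 𝒞.t_mem)

lemma t_pow_not_mem (𝒞 : MWDatum R) (n : ℕ) (hn : 1 ≤ n) : 𝒞.t ^ n ∉ 𝒞.W (n * 𝒞.e - 1) := by
  have he := 𝒞.e_pos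
  -- the statement over `ℚ̄`
  have key : ∀ n : ℕ, 1 ≤ n →
      ((1 : QQbar) ⊗ₜ[ℚ] 𝒞.t) ^ n ∉ (𝒞.W (n * 𝒞.e - 1)).baseChange QQbar := by
    intro n hn
    induction n, hn using Nat.le_induction with
    | base =>
      rw [pow_one, one_mul, one_tmul_mem_baseChange_iff]
      exact 𝒞.t_not_mem
    | succ n hn ih =>
      have h1 : ((1 : QQbar) ⊗ₜ[ℚ] 𝒞.t) ∉ (𝒞.W (𝒞.e - 1)).baseChange QQbar := by
        rw [one_tmul_mem_baseChange_iff]
        exact 𝒞.t_not_mem
      have h2 := 𝒞.bar_val _ _ _ _ ih h1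
      have e1 : n * 𝒞.e - 1 + (𝒞.e - 1) + 1 = (n + 1) * 𝒞.e - 1 := by
        have : 1 ≤ n * 𝒞.e := Nat.one_le_iff_ne_zero.2 (Nat.mul_ne_zero (by omega) (by omega))
        rw [Nat.succ_mul]
        omega
      rw [e1, ← pow_succ] at h2
      exact h2
  intro h
  apply key n hn
  have := Submodule.tmul_mem_baseChange_of_mem (A := QQbar) (1 : QQbar) h
  rwa [show ((1 : QQbar) ⊗ₜ[ℚ] 𝒞.t) ^ n = (1 : QQbar) ⊗ₜ[ℚ] (𝒞.t ^ n) by
    rw [Algebra.TensorProduct.tmul_pow, one_pow]]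

/-- `t` is transcendental: `f(t) ≠ 0` for every monic `f`. -/
theorem aeval_t_ne_zero (𝒞 : MWDatum R) (f : ℚ[X]) (hf : f.Monic) : aeval 𝒞.t f ≠ 0 := by
  intro h0
  have he := 𝒞.e_pos
  set n := f.natDegree with hn
  rcases Nat.eq_zero_or_pos n with h | h
  · -- `f = 1`
    have hf1 : f = 1 := by
      rw [Polynomial.eq_one_of_monic_natDegree_zero hf (hn ▸ h)]
    rw [hf1, map_one] at h0
    exact one_ne_zero h0
  · apply t_pow_not_mem 𝒞 n h
    -- `t ^ n = - ∑_{i < n} c_i t ^ i`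
    have hsum : aeval 𝒞.t f = 𝒞.t ^ n + ∑ i ∈ Finset.range n, f.coeff i • 𝒞.t ^ i := by
      rw [aeval_eq_sum_range, ← hn, Finset.sum_range_succ, add_comm]
      congr 1
      rw [hn, hf.coeff_natDegree, one_smul]
    have hmem : ∑ i ∈ Finset.range n, f.coeff i • 𝒞.t ^ i ∈ 𝒞.W (n * 𝒞.e - 1) := by
      apply Submodule.sum_mem
      intro i hi
      apply Submodule.smul_mem
      have hi' : i < n := Finset.mem_range.1 hi
      apply 𝒞.W_mono _ (t_pow_mem 𝒞 i)
      have : i * 𝒞.e + 𝒞.e ≤ n * 𝒞.e := by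
        rw [← Nat.succ_mul]
        exact Nat.mul_le_mul_right _ hi'
      omega
    have : 𝒞.t ^ n = - ∑ i ∈ Finset.range n, f.coeff i • 𝒞.t ^ i := by
      rw [eq_neg_iff_add_eq_zero, ← hsum, h0]
    rw [this]
    exact Submodule.neg_mem _ hmem

/-! ### The characteristic polynomial -/

lemma tCharpoly_eq (𝒞 : MWDatum R) (I : Ideal R) [h : Module.Finite ℚ (R ⧸ I)] :
    𝒞.tCharpoly I = (LinearMap.mulLeft ℚ (Ideal.Quotient.mk I 𝒞.t)).charpoly := by
  unfold MWDatum.tCharpoly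
  rw [dif_pos h]

lemma tCharpoly_monic (𝒞 : MWDatum R) (I : Ideal R) : (𝒞.tCharpoly I).Monic := by
  unfold MWDatum.tCharpoly
  split_ifs with h
  · exact LinearMap.charpoly_monic _
  · exact monic_one

lemma tCharpoly_natDegree (𝒞 : MWDatum R) (I : Ideal R) [Module.Finite ℚ (R ⧸ I)] :
    (𝒞.tCharpoly I).natDegree = 𝒞.deg I := by
  rw [tCharpoly_eq, LinearMap.charpoly_natDegree]
  rfl

/-- Cayley–Hamilton: `χ_I(t) ∈ I`. -/
theorem aeval_tCharpoly_mem (𝒞 : MWDatum R) (I : Ideal R) [Module.Finite ℚ (R ⧸ I)] :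
    aeval 𝒞.t (𝒞.tCharpoly I) ∈ I := by
  rw [tCharpoly_eq]
  set a : R ⧸ I := Ideal.Quotient.mk I 𝒞.t with ha
  have h1 : aeval (Algebra.lmul ℚ (R ⧸ I) a) (LinearMap.mulLeft ℚ a).charpoly = 0 :=
    LinearMap.aeval_self_charpoly (LinearMap.mulLeft ℚ a)
  rw [Polynomial.aeval_algHom_apply] at h1
  have h4 : aeval a (LinearMap.mulLeft ℚ a).charpoly = 0 := by
    have h3 : (Algebra.lmul ℚ (R ⧸ I) (aeval a (LinearMap.mulLeft ℚ a).charpoly)) 1 = 0 := by
      rw [h1]; rfl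
    have h3' : (Algebra.lmul ℚ (R ⧸ I) (aeval a (LinearMap.mulLeft ℚ a).charpoly)) 1
        = aeval a (LinearMap.mulLeft ℚ a).charpoly * 1 := rfl
    rw [h3', mul_one] at h3
    exact h3
  have h5 : aeval a (LinearMap.mulLeft ℚ a).charpoly
      = Ideal.Quotient.mkₐ ℚ I (aeval 𝒞.t (LinearMap.mulLeft ℚ a).charpoly) := by
    rw [← Polynomial.aeval_algHom_apply]
    rfl
  rw [h5] at h4
  exact Ideal.Quotient.eq_zero_iff_mem.1 h4

/-! ### Finitely many ideals contain a nonzero element -/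

omit [Algebra ℚ R] in
lemma finite_ideals_of_mem (y : R) (hy : y ≠ 0) : {I : Ideal R | y ∈ I}.Finite := by
  have hne : Ideal.span ({y} : Set R) ≠ 0 := by
    rw [Ne, Ideal.zero_eq_bot, Ideal.span_singleton_eq_bot]
    exact hy
  let _inst : Fintype {J : Ideal R // J ∣ Ideal.span ({y} : Set R)} :=
    UniqueFactorizationMonoid.fintypeSubtypeDvd _ hne
  have hfin0 : Finite {J : Ideal R // J ∣ Ideal.span ({y} : Set R)} := Finite.of_fintype _
  have hfin : {J : Ideal R | J ∣ Ideal.span ({y} : Set R)}.Finite :=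
    Set.finite_coe_iff.1 hfin0
  apply hfin.subset
  intro I hI
  rw [Set.mem_ofPred_eq] at hI ⊢
  rw [Ideal.dvd_iff_le, Ideal.span_le, Set.singleton_subset_iff]
  exact hI

/-! ### The theorem -/

/-- **MW-NORTH.**  Northcott for the naive height `h_∞` of ideals, and non-negativity. -/
theorem north (𝒞 : MWDatum R) (hN : NorthcottPolyStatement) : 𝒞.NorthStatement := by
  have he : (0 : ℝ) < 𝒞.e := by exact_mod_cast 𝒞.e_pos
  refine ⟨fun I => div_nonneg (Height.logHeight_nonneg _) he.le, fun d B => ?_⟩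
  -- the finite set of possible characteristic polynomials
  have hF := hN d (B * 𝒞.e)
  have hfib : ∀ f ∈ {f : ℚ[X] | f.Monic ∧ f.natDegree ≤ d ∧ polyHeight f ≤ B * 𝒞.e},
      {I : Ideal R | aeval 𝒞.t f ∈ I}.Finite := by
    intro f hf
    exact finite_ideals_of_mem _ (aeval_t_ne_zero 𝒞 f hf.1)
  apply (hF.biUnion hfib).subset
  rintro I ⟨hI, hdeg, hh⟩
  have _hfin : Module.Finite ℚ (R ⧸ I) := quotient_finite 𝒞 I hI
  rw [Set.mem_iUnion₂]
  refine ⟨𝒞.tCharpoly I, ⟨tCharpoly_monic 𝒞 I, ?_, ?_⟩, aeval_tCharpoly_mem 𝒞 I⟩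
  · rw [tCharpoly_natDegree]
    exact hdeg
  · have : 𝒞.hT I / 𝒞.e ≤ B := hh
    rwa [div_le_iff₀ he] at this

end Fermat.Agent.H46.MW

end
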