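import Fermat.Agent.H30.MW.MoveInterfaces
import Fermat.Agent.H46.MW.North

/-!
# P-MW, row MV-FIN (helper46): `t` is transcendental and `R` is finite over `ℚ[t]`

`finiteOverT (𝒞 : MWDatum R) (hB : BasicStatement 𝒞) : FiniteOverTStatement 𝒞`
(the hypothesis `hB` is not used: `finiteOverT_uncond`).

* `t_transcendental` : from `aeval_t_ne_zero` (row MW-NORTH);
* `mul_not_mem` : `a ∉ W m`, `b ∉ W m'` imply `a b ∉ W (m + m' + 1)` over `ℚ` (from `bar_val`);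
* `exists_sub_smul_mem` : `W (m + 1) / W m` has dimension `≤ 1`;
* `exists_exact` : for `m ≥ m₀` there is an element of exact pole order `m + 1`;
* `R = ℚ[t] · W (m₀ + e)`.
-/

set_option autoImplicit false

noncomputable section

open Module TensorProduct Polynomial

namespace Fermat.Agent.H46.MW

open Fermat.Agent.H92.MW

variable {R : Type} [CommRing R] [Algebra ℚ R] [IsDedekindDomain R]

/-- `t` is transcendental over `ℚ`. -/
theorem t_transcendental (𝒞 : MWDatum R) : Transcendental ℚ 𝒞.t := by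
  rintro ⟨p, hp0, hp⟩
  have hmon : (p * C p.leadingCoeff⁻¹).Monic := monic_mul_leadingCoeff_inv hp0
  apply aeval_t_ne_zero 𝒞 _ hmon
  rw [map_mul, hp, zero_mul]

/-- The pole order is super-additive (over `ℚ`). -/
lemma mul_not_mem (𝒞 : MWDatum R) {a b : R} {m m' : ℕ} (ha : a ∉ 𝒞.W m) (hb : b ∉ 𝒞.W m') :
    a * b ∉ 𝒞.W (m + m' + 1) := by
  intro h
  have h1 : (1 : QQbar) ⊗ₜ[ℚ] a ∉ (𝒞.W m).baseChange QQbar := by
    rwa [one_tmul_mem_baseChange_iff]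
  have h2 : (1 : QQbar) ⊗ₜ[ℚ] b ∉ (𝒞.W m').baseChange QQbar := by
    rwa [one_tmul_mem_baseChange_iff]
  apply 𝒞.bar_val _ _ m m' h1 h2
  have := Submodule.tmul_mem_baseChange_of_mem (A := QQbar) (1 : QQbar) h
  rwa [show ((1 : QQbar) ⊗ₜ[ℚ] a) * ((1 : QQbar) ⊗ₜ[ℚ] b) = (1 : QQbar) ⊗ₜ[ℚ] (a * b) by
    rw [Algebra.TensorProduct.tmul_mul_tmul, one_mul]]

/-- `W (m + 1) / W m` has dimension at most one. -/
lemma exists_sub_smul_mem (𝒞 : MWDatum R) (m : ℕ) {x y : R} (hx : x ∈ 𝒞.W (m + 1))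
    (hy : y ∈ 𝒞.W (m + 1)) (hy' : y ∉ 𝒞.W m) : ∃ c : ℚ, x - c • y ∈ 𝒞.W m := by
  have hle : 𝒞.W m ≤ 𝒞.W (m + 1) := 𝒞.W_mono (Nat.le_succ m)
  set U : Submodule ℚ ↥(𝒞.W (m + 1)) := Submodule.comap (𝒞.W (m + 1)).subtype (𝒞.W m) with hU
  have hfU : finrank ℚ ↥U = finrank ℚ ↥(𝒞.W m) :=
    LinearEquiv.finrank_eq (Submodule.comapSubtypeEquivOfLe hle)
  have hq : finrank ℚ (↥(𝒞.W (m + 1)) ⧸ U) ≤ 1 := by
    have h1 := Submodule.finrank_quotient_add_finrank U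
    have h2 := 𝒞.W_step m
    omega
  obtain ⟨v, hv⟩ := finrank_le_one_iff.1 hq
  obtain ⟨c₁, hc₁⟩ := hv (U.mkQ ⟨y, hy⟩)
  obtain ⟨c₂, hc₂⟩ := hv (U.mkQ ⟨x, hx⟩)
  have hc₁0 : c₁ ≠ 0 := by
    rintro rfl
    rw [zero_smul] at hc₁
    have : (⟨y, hy⟩ : ↥(𝒞.W (m + 1))) ∈ U := (Submodule.Quotient.mk_eq_zero U).1 hc₁.symm
    exact hy' this
  refine ⟨c₂ * c₁⁻¹, ?_⟩
  have h3 : U.mkQ (⟨x, hx⟩ - (c₂ * c₁⁻¹) • ⟨y, hy⟩) = 0 := by
    rw [map_sub, map_smul, ← hc₁, ← hc₂, smul_smul, mul_assoc, inv_mul_cancel₀ hc₁0, mul_one,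
      sub_self]
  have h4 : (⟨x, hx⟩ - (c₂ * c₁⁻¹) • ⟨y, hy⟩ : ↥(𝒞.W (m + 1))) ∈ U :=
    (Submodule.Quotient.mk_eq_zero U).1 h3
  exact h4

/-- For `m ≥ m₀` there is an element of exact pole order `m + 1`. -/
lemma exists_exact (𝒞 : MWDatum R) (m : ℕ) (hm : 𝒞.m₀ ≤ m) :
    ∃ c : R, c ∈ 𝒞.W (m + 1) ∧ c ∉ 𝒞.W m := by
  by_contra hcon
  push Not at hcon
  have hle : 𝒞.W (m + 1) ≤ 𝒞.W m := fun c hc => hcon c hc
  have heq : 𝒞.W (m + 1) = 𝒞.W m := le_antisymm hle (𝒞.W_mono (Nat.le_succ m))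
  have h1 := 𝒞.W_finrank m hm
  have h2 := 𝒞.W_finrank (m + 1) (hm.trans (Nat.le_succ m))
  rw [heq] at h2
  omega

/-- **MV-FIN**, unconditional in the datum. -/
theorem finiteOverT_uncond (𝒞 : MWDatum R) : Fermat.Agent.H30.MW.FiniteOverTStatement 𝒞 := by
  refine ⟨t_transcendental 𝒞, ?_⟩
  have he := 𝒞.e_pos
  letI : Algebra ℚ[X] R := (aeval (R := ℚ) 𝒞.t).toRingHom.toAlgebra
  show Module.Finite ℚ[X] R
  have hsmul : ∀ (p : ℚ[X]) (x : R), p • x = aeval 𝒞.t p * x := fun p x => rfl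
  -- a finite `ℚ`-spanning set of `W (m₀ + e)`
  obtain ⟨B, hB⟩ : (𝒞.W (𝒞.m₀ + 𝒞.e)).FG := Module.Finite.iff_fg.1 inferInstance
  refine ⟨⟨B, ?_⟩⟩
  set M : Submodule ℚ[X] R := Submodule.span ℚ[X] (↑B : Set R) with hM
  have hC : ∀ (c : ℚ) (x : R), x ∈ M → c • x ∈ M := by
    intro c x hx
    have : c • x = (C c : ℚ[X]) • x := by
      rw [hsmul, aeval_C, Algebra.smul_def]
    rw [this]
    exact M.smul_mem _ hx
  have hX : ∀ x : R, x ∈ M → 𝒞.t * x ∈ M := by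
    intro x hx
    have : 𝒞.t * x = (X : ℚ[X]) • x := by
      rw [hsmul, aeval_X]
    rw [this]
    exact M.smul_mem _ hx
  have hbase : ∀ a ∈ 𝒞.W (𝒞.m₀ + 𝒞.e), a ∈ M := by
    intro a ha
    rw [← hB] at ha
    induction ha using Submodule.span_induction with
    | mem x hx => exact Submodule.subset_span hx
    | zero => exact M.zero_mem
    | add x y _ _ hx hy => exact M.add_mem hx hy
    | smul c x _ hx => exact hC c x hx
  have key : ∀ n : ℕ, ∀ a ∈ 𝒞.W n, a ∈ M := by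
    intro n
    induction n using Nat.strong_induction_on with
    | _ n ih =>
      intro a ha
      rcases Nat.lt_or_ge (𝒞.m₀ + 𝒞.e) n with hn | hn
      · -- `n > m₀ + e`
        obtain ⟨k, rfl⟩ : ∃ k, n = k + 1 := ⟨n - 1, by omega⟩
        -- an element of exact pole order `k + 1 - e`
        obtain ⟨j, hj⟩ : ∃ j, k + 1 = j + 1 + 𝒞.e := ⟨k - 𝒞.e, by omega⟩
        have hjm : 𝒞.m₀ ≤ j := by omega
        obtain ⟨c', hc', hc'n⟩ := exists_exact 𝒞 j hjm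
        have hc'M : c' ∈ M := ih (j + 1) (by omega) c' hc'
        have hcM : 𝒞.t * c' ∈ M := hX c' hc'M
        have hc_mem : 𝒞.t * c' ∈ 𝒞.W (k + 1) := by
          have := 𝒞.W_mul _ _ (Submodule.mul_mem_mul 𝒞.t_mem hc')
          rwa [show 𝒞.e + (j + 1) = k + 1 by omega] at this
        have hc_not : 𝒞.t * c' ∉ 𝒞.W k := by
          have := mul_not_mem 𝒞 𝒞.t_not_mem hc'n
          rwa [show 𝒞.e - 1 + j + 1 = k by omega] at this
        obtain ⟨c, hc⟩ := exists_sub_smul_mem 𝒞 k ha hc_mem hc_not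
        have h1 : a - c • (𝒞.t * c') ∈ M := ih k (Nat.lt_succ_self k) _ hc
        have h2 : c • (𝒞.t * c') ∈ M := hC c _ hcM
        have := M.add_mem h1 h2
        rwa [sub_add_cancel] at this
      · exact hbase a (𝒞.W_mono hn ha)
  rw [eq_top_iff]
  intro a _
  obtain ⟨n, hn⟩ := 𝒞.W_exhaust a
  exact key n a hn

/-- **MV-FIN** (row 777), in the requested form. -/
theorem finiteOverT (𝒞 : MWDatum R) (_hB : BasicStatement 𝒞) :
    Fermat.Agent.H30.MW.FiniteOverTStatement 𝒞 :=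
  finiteOverT_uncond 𝒞

end Fermat.Agent.H46.MW

end
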